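import Fermat.Agent.MUL.Lib.BadRed.Final.Main
import Fermat.Agent.MUL.R38.Ret.ChiCore

section MergeWrap_S35_Transfer -- from S35/Transfer.lean

/-!
# The eigen-lattice of the S30 core, with the TRANSFER principle
(owner: helper62; bridge between cluster T = bad reduction and S34 / S35)

`Fermat.Agent.S30Tate.exists_eigenLattice` constructs the `c`-eigenpart `Λ` of the `p`-adic
Tate module of `O ⊗ J` (abstract `J`, `G`, `T i`).  Here we prove the same statement with one
more clause, the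

**transfer principle**: every identity `∑ aᵢ gᵢ = 0` (`aᵢ ∈ ℤ`, `gᵢ ∈ G`; a `List (ℤ × G)`)
which holds on `J[p ^ n]` for all `n` holds on `Λ`  (`exists_eigenLattice_transfer`).

So statements on the torsion such as `(σ - 1)² = 0` or `(φ² - q²)(φ² - 1) = 0` pass to `Λ`.
Example: `(φ² - q²)(φ² - 1) = φ⁴ - (q² + 1) φ² + q²` is the list
`[(1, φ ^ 4), (-(q ^ 2 + 1), φ ^ 2), (q ^ 2, 1)]`.
-/

set_option autoImplicit false
set_option linter.unusedSectionVars false
set_option linter.style.haveILetI false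

noncomputable section

namespace Fermat.Agent.S35

open IsLocalRing Fermat.Agent.S30Tate
open scoped TensorProduct

/-! ### abstract part -/

section Abstract

variable (O : Type*) [CommRing O] {J : Type*} [AddCommGroup J]
  {G : Type*} [Group G] [DistribMulAction G J]

/-- The `ℤ`-linear endomorphism `∑ aᵢ gᵢ` of `J`. -/
def listLinZ (l : List (ℤ × G)) : J →ₗ[ℤ] J :=
  (l.map fun ag => ag.1 • galLinZ J ag.2).sum

theorem listLinZ_nil : listLinZ (J := J) ([] : List (ℤ × G)) = 0 := rfl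

theorem listLinZ_cons (ag : ℤ × G) (l : List (ℤ × G)) :
    listLinZ (J := J) (ag :: l) = ag.1 • galLinZ J ag.2 + listLinZ l := by
  unfold listLinZ
  rw [List.map_cons, List.sum_cons]

theorem listLinZ_apply (l : List (ℤ × G)) (x : J) :
    listLinZ l x = (l.map fun ag => ag.1 • (ag.2 • x)).sum := by
  induction l with
  | nil => simp [listLinZ_nil]
  | cons ag l ih =>
    rw [listLinZ_cons, LinearMap.add_apply, ih, List.map_cons, List.sum_cons,
      LinearMap.smul_apply, galLinZ_apply]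

theorem listLinZ_baseChange (l : List (ℤ × G)) (m : O ⊗[ℤ] J) :
    (listLinZ (J := J) l).baseChange O m = (l.map fun ag => ag.1 • galBC O J ag.2 m).sum := by
  induction l with
  | nil => simp [listLinZ_nil]
  | cons ag l ih =>
    rw [listLinZ_cons, LinearMap.baseChange_add, LinearMap.add_apply, ih, List.map_cons,
      List.sum_cons, LinearMap.baseChange_smul, LinearMap.smul_apply, galBC_apply]

variable [Module.Flat ℤ O]

/-- An identity `∑ aᵢ gᵢ = 0` on `J[n]` holds on `(O ⊗ J)[n]`. -/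
theorem galBC_list_eq_zero (n : ℕ) (l : List (ℤ × G))
    (h : ∀ x : J, n • x = 0 → (l.map fun ag => ag.1 • (ag.2 • x)).sum = 0)
    (m : O ⊗[ℤ] J) (hm : (n : O) • m = 0) :
    (l.map fun ag => ag.1 • galBC O J ag.2 m).sum = 0 := by
  rw [← listLinZ_baseChange]
  exact baseChange_eq_zero_of_torsion O n (listLinZ l)
    (fun x hx => by rw [listLinZ_apply]; exact h x hx) m hm

end Abstract

section AbstractTate

variable {O : Type*} [CommRing O] {π : O} {M : Type*} [AddCommGroup M] [Module O M]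
  {ι : Type*} {h : ι → Module.End O M} {c : ι → O}
  {G : Type*} [Group G] (g : G →* Module.End O M)
  (hcomm : ∀ σ i m, h i (g σ m) = g σ (h i m))

theorem list_sum_eigenTateRep_apply (l : List (ℤ × G)) (x : eigenTate π h c) (n : ℕ) :
    ((l.map fun ag => ag.1 • eigenTateRep (π := π) (c := c) g hcomm ag.2).sum x).1 n
      = (l.map fun ag => ag.1 • g ag.2 (x.1 n)).sum := by
  induction l with
  | nil => simp
  | cons ag l ih =>
    rw [List.map_cons, List.sum_cons, LinearMap.add_apply, List.map_cons, List.sum_cons, ← ih]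
    rfl

/-- **Transfer principle**, abstract form. -/
theorem eigenTateRep_list_eq_zero (l : List (ℤ × G))
    (hl : ∀ (n : ℕ) (m : M), π ^ n • m = 0 → (l.map fun ag => ag.1 • g ag.2 m).sum = 0) :
    (l.map fun ag => ag.1 • eigenTateRep (π := π) (c := c) g hcomm ag.2).sum = 0 := by
  apply LinearMap.ext
  intro x
  apply Subtype.ext
  funext n
  rw [list_sum_eigenTateRep_apply]
  exact hl n _ (eigenTate_pow_smul_self x n)

end AbstractTate

/-! ### the eigen-lattice with the transfer principle -/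

/-- **W1 with TRANSFER, abstract form.**  This is `S30Tate.exists_eigenLattice` with one more
clause: every identity `∑ aᵢ gᵢ = 0` which holds on all `J[p ^ n]` holds on the lattice. -/
theorem exists_eigenLattice_transfer
    {O : Type} [CommRing O] [IsDomain O] [IsDiscreteValuationRing O]
    [IsAdicComplete (maximalIdeal O) O] [CharZero O]
    {p : ℕ} (hp : p.Prime) (hpO : (p : O) ∈ maximalIdeal O)
    {J : Type} [AddCommGroup J] {G : Type} [Group G] [DistribMulAction G J]
    {ι : Type} (T : ι → Module.End ℤ J) (c : ι → O)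
    (hT : ∀ i (σ : G) (x : J), T i (σ • x) = σ • T i x)
    (hfin : {x : J | p • x = 0}.Finite)
    (μ : ∀ n, Submodule.torsionBy ℤ J ((p ^ (n + 1) : ℕ) : ℤ) →ₗ[ℤ]
      Submodule.torsionBy ℤ J ((p ^ n : ℕ) : ℤ))
    (hμ : ∀ n (y : Submodule.torsionBy ℤ J ((p ^ (n + 1) : ℕ) : ℤ)),
      ((μ n y : Submodule.torsionBy ℤ J ((p ^ n : ℕ) : ℤ)) : J) = (p : ℤ) • (y : J))
    (Tt : ∀ (_ : ι) (n : ℕ), Submodule.torsionBy ℤ J ((p ^ n : ℕ) : ℤ) →ₗ[ℤ]
      Submodule.torsionBy ℤ J ((p ^ n : ℕ) : ℤ))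
    (hTt : ∀ i n (y : Submodule.torsionBy ℤ J ((p ^ n : ℕ) : ℤ)),
      ((Tt i n y : Submodule.torsionBy ℤ J ((p ^ n : ℕ) : ℤ)) : J) = T i (y : J))
    (x : (n : ℕ) → O ⊗[ℤ] Submodule.torsionBy ℤ J ((p ^ n : ℕ) : ℤ))
    (hx0 : ∃ n, x n ≠ 0)
    (hcompat : ∀ n, (μ n).baseChange O (x (n + 1)) = x n)
    (heig : ∀ i n, (Tt i n).baseChange O (x n) = c i • x n) :
    ∃ (Λ : Type) (_ : AddCommGroup Λ) (_ : Module O Λ) (_ : Module.Free O Λ)
      (_ : Module.Finite O Λ) (_ : Nontrivial Λ) (ρ : G →* Module.End O Λ),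
      (∀ (n : ℕ) (σ : G), (∀ y : J, p ^ n • y = 0 → σ • y = y) →
          ∀ v : Λ, ρ σ v - v ∈ (maximalIdeal O ^ n) • (⊤ : Submodule O Λ)) ∧
      (∀ σ : G, (∀ (n : ℕ) (y : J), p ^ n • y = 0 → σ • y = y) → ρ σ = 1) ∧
      (∀ (σ : G) (i : ι) (ℓ : ℕ),
          (∀ (n : ℕ) (y : J), p ^ n • y = 0 → σ • σ • y - T i (σ • y) + ℓ • y = 0) →
          ρ σ * ρ σ - c i • ρ σ + (ℓ : O) • (1 : Module.End O Λ) = 0) ∧
      (∀ l : List (ℤ × G),
          (∀ (n : ℕ) (y : J), p ^ n • y = 0 → (l.map fun ag => ag.1 • (ag.2 • y)).sum = 0) →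
          (l.map fun ag => ag.1 • ρ ag.2).sum = 0) := by
  have hπ0 : (p : O) ≠ 0 := Nat.cast_ne_zero.mpr hp.ne_zero
  have hfg : (Submodule.torsionBy O (O ⊗[ℤ] J) (p : O)).FG := torsionBy_tensor_fg O p hfin
  have hcomm : ∀ (σ : G) (i : ι) (m : O ⊗[ℤ] J),
      (T i).baseChange O (galBC O J σ m) = galBC O J σ ((T i).baseChange O m) :=
    fun σ i m => galBC_comm O (T i) (hT i) σ m
  have hcast : ∀ (n : ℕ) (m : O ⊗[ℤ] J), (p : O) ^ n • m = 0 →
      ((p ^ n : ℕ) : O) • m = 0 := fun n m hm => by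
    rw [Nat.cast_pow]; exact hm
  obtain ⟨X, hX, hXne⟩ := exists_mem_eigenTate_ne_zero T c μ hμ Tt hTt x hx0 hcompat heig
  refine ⟨eigenTate (p : O) (fun i => (T i).baseChange O) c, inferInstance, inferInstance,
    eigenTate_free hpO hπ0 hfg, eigenTate_finite hpO hπ0 hfg,
    ⟨⟨⟨X, hX⟩, 0, fun h => hXne (congrArg Subtype.val h)⟩⟩,
    eigenTateRep (galBC O J) hcomm, ?_, ?_, ?_, ?_⟩
  · intro n σ hfix v
    exact eigenTateRep_sub_mem (galBC O J) hcomm hpO hπ0
      (fun m hm => galBC_fix O (p ^ n) σ hfix m (hcast n m hm)) v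
  · intro σ hfix
    apply eigenTateRep_eq_one
    intro n m hm
    exact galBC_fix O (p ^ n) σ (hfix n) m (hcast n m hm)
  · intro σ i ℓ hq
    exact eigenTateRep_quadratic (h := fun i => (T i).baseChange O) (galBC O J) hcomm i (ℓ : O)
      (fun n m hm => galBC_quadratic O (p ^ n) σ (T i) ℓ (hq n) m (hcast n m hm))
  · intro l hl
    apply eigenTateRep_list_eq_zero
    intro n m hm
    exact galBC_list_eq_zero O (p ^ n) l (hl n) m (hcast n m hm)

end Fermat.Agent.S35
end
end MergeWrap_S35_Transfer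

section MergeWrap_S35_TransferCond -- from S35/TransferCond.lean

/-!
# S35, WP Tc: the eigen-lattice with the CONDITIONAL transfer principle

Same as `exists_eigenLattice_transfer` (helper62), for an eigen-class `x n` which is killed by
a `G`-stable kernel condition `u : J →ₗ[ℤ] J'`:  the lattice is the part of the eigen-lattice
on which `u ⊗ 1` vanishes, and every identity `∑ aᵢ gᵢ = 0` which holds on
`{y ∈ J[p ^ n] : u y = 0}` (all `n`) holds on the lattice.

Statement by helper36; proof by helper34 (complete): the lattice is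
`tcCondTate`, the part of `eigenTate` on which `u ⊗ 1` vanishes; flatness of `O` over `ℤ`
gives `ker (u ⊗ 1) = O ⊗ ker u`.
-/

set_option autoImplicit false
set_option linter.unusedSectionVars false
set_option linter.style.haveILetI false

noncomputable section

namespace Fermat.Agent.S35

open IsLocalRing Fermat.Agent.S30Tate
open scoped TensorProduct

/-! ### flatness: kernels after base change -/

section Flat

variable (O : Type*) [CommRing O] [Module.Flat ℤ O] {J : Type*} [AddCommGroup J]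

/-- the kernel of `w ⊗ 1` is the image of `O ⊗ ker w` -/
theorem tc_exists_ker_lift {W : Type*} [AddCommGroup W] (w : J →ₗ[ℤ] W) (m : O ⊗[ℤ] J)
    (hm : w.baseChange O m = 0) :
    ∃ z : O ⊗[ℤ] LinearMap.ker w, (LinearMap.ker w).subtype.baseChange O z = m := by
  have hex : Function.Exact (LinearMap.ker w).subtype w := LinearMap.exact_subtype_ker_map w
  have h1 := Module.Flat.lTensor_exact O hex
  have h2 : (w.lTensor O) m = 0 := hm
  obtain ⟨z, hz⟩ := (h1 m).mp h2
  exact ⟨z, hz⟩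

/-- a map vanishing on `ker w` vanishes on `ker (w ⊗ 1)` after base change -/
theorem tc_baseChange_eq_zero_of_ker {W J'' : Type*} [AddCommGroup W] [AddCommGroup J'']
    (w : J →ₗ[ℤ] W) (f : J →ₗ[ℤ] J'') (hf : ∀ y : J, w y = 0 → f y = 0) (m : O ⊗[ℤ] J)
    (hm : w.baseChange O m = 0) : f.baseChange O m = 0 := by
  obtain ⟨z, rfl⟩ := tc_exists_ker_lift O w m hm
  have h0 : f ∘ₗ (LinearMap.ker w).subtype = 0 := by
    apply LinearMap.ext
    intro y
    exact hf _ y.2
  rw [← LinearMap.comp_apply, ← LinearMap.baseChange_comp, h0, LinearMap.baseChange_zero,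
    LinearMap.zero_apply]

/-- a map vanishing on `J[n] ∩ ker u` vanishes on `(O ⊗ J)[n] ∩ ker (u ⊗ 1)` -/
theorem tc_baseChange_eq_zero_of_torsion_of_ker {J' J'' : Type*} [AddCommGroup J']
    [AddCommGroup J''] (n : ℕ) (u : J →ₗ[ℤ] J') (f : J →ₗ[ℤ] J'')
    (hf : ∀ y : J, n • y = 0 → u y = 0 → f y = 0) (m : O ⊗[ℤ] J) (hm : (n : O) • m = 0)
    (hum : u.baseChange O m = 0) : f.baseChange O m = 0 := by
  obtain ⟨z, rfl⟩ := exists_torsion_lift O n m hm
  rw [← LinearMap.comp_apply, ← LinearMap.baseChange_comp] at hum ⊢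
  refine tc_baseChange_eq_zero_of_ker O (u ∘ₗ (Submodule.torsionBy ℤ J (n : ℤ)).subtype)
    (f ∘ₗ (Submodule.torsionBy ℤ J (n : ℤ)).subtype) ?_ z hum
  intro y hy
  have hy2 := y.2
  rw [Submodule.mem_torsionBy_iff, natCast_zsmul] at hy2
  exact hf _ hy2 hy

end Flat

/-! ### the conditional eigen-lattice, abstract part -/

section CondTate

variable {O : Type*} [CommRing O] (π : O) {M : Type*} [AddCommGroup M] [Module O M]
  {N : Type*} [AddCommGroup N] [Module O N]
  {ι : Type*} (h : ι → Module.End O M) (c : ι → O) (U : M →ₗ[O] N)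

/-- The part of the eigen-lattice on which `U` vanishes. -/
def tcCondTate : Submodule O (ℕ → M) where
  carrier := {x | x ∈ eigenTate π h c ∧ ∀ n, U (x n) = 0}
  add_mem' := by
    rintro x y ⟨hx, hx'⟩ ⟨hy, hy'⟩
    refine ⟨(eigenTate π h c).add_mem hx hy, fun n => ?_⟩
    simp only [Pi.add_apply, map_add, hx' n, hy' n, add_zero]
  zero_mem' := ⟨(eigenTate π h c).zero_mem, fun n => by simp⟩
  smul_mem' := by
    rintro a x ⟨hx, hx'⟩
    refine ⟨(eigenTate π h c).smul_mem a hx, fun n => ?_⟩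
    simp only [Pi.smul_apply, map_smul, hx' n, smul_zero]

variable {π h c U}

theorem tc_mem_condTate {x : ℕ → M} :
    x ∈ tcCondTate π h c U ↔ x ∈ eigenTate π h c ∧ ∀ n, U (x n) = 0 := Iff.rfl

theorem tcCondTate_le : tcCondTate π h c U ≤ eigenTate π h c := fun _ hx => hx.1

theorem tcCondTate_le_tate : tcCondTate π h c U ≤ tate π M := fun _ hx => hx.1.1

theorem tcCondTate_pow_smul_self (x : tcCondTate π h c U) (n : ℕ) : π ^ n • x.1 n = 0 :=
  tate_pow_smul_self x.2.1.1 n

theorem tc_comp_mem_tate (V : M →ₗ[O] N) {x : ℕ → M} (hx : x ∈ tate π M) :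
    (fun n => V (x n)) ∈ tate π N := by
  refine ⟨?_, fun n => ?_⟩
  · show V (x 0) = 0
    rw [tate_zero hx, map_zero]
  · show π • V (x (n + 1)) = V (x n)
    rw [← map_smul, tate_succ hx]

end CondTate

section CondTateDVR

variable {O : Type*} [CommRing O] [IsDomain O] [IsDiscreteValuationRing O]
  {π : O} {M : Type*} [AddCommGroup M] [Module O M]
  {N : Type*} [AddCommGroup N] [Module O N]
  {ι : Type*} {h : ι → Module.End O M} {c : ι → O} {U : M →ₗ[O] N}

/-- The conditional eigen-lattice is saturated in the Tate module. -/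
theorem tcCondTate_saturated (hπ : π ∈ maximalIdeal O) {a : O} (ha : a ≠ 0) {x : ℕ → M}
    (hx : x ∈ tate π M) (hax : a • x ∈ tcCondTate π h c U) : x ∈ tcCondTate π h c U := by
  refine ⟨eigenTate_saturated hπ ha hx hax.1, fun n => ?_⟩
  have hz : (fun n => U (x n)) ∈ tate π N := tc_comp_mem_tate U hx
  have hz0 : a • (fun n => U (x n)) = 0 := by
    funext n
    have := hax.2 n
    simp only [Pi.smul_apply, map_smul] at this
    simp only [Pi.smul_apply, Pi.zero_apply, this]
  have := tate_smul_eq_zero hπ ha hz hz0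
  exact congrFun this n

theorem tcCondTate_isTorsionFree (hπ : π ∈ maximalIdeal O) :
    Module.IsTorsionFree O (tcCondTate π h c U) := by
  refine Module.IsTorsionFree.of_smul_eq_zero fun a x hax => ?_
  by_cases ha : a = 0
  · exact Or.inl ha
  · right
    apply Subtype.ext
    apply tate_smul_eq_zero hπ ha x.2.1.1
    have := congrArg Subtype.val hax
    simpa using this

theorem tcCondTate_finite [IsAdicComplete (maximalIdeal O) O] (hπ : π ∈ maximalIdeal O)
    (hπ0 : π ≠ 0) (hfg : (Submodule.torsionBy O M π).FG) :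
    Module.Finite O (tcCondTate π h c U) :=
  Module.Finite.iff_fg.mpr ((tate_fg hπ hπ0 hfg).of_le tcCondTate_le_tate)

theorem tcCondTate_free [IsAdicComplete (maximalIdeal O) O] (hπ : π ∈ maximalIdeal O)
    (hπ0 : π ≠ 0) (hfg : (Submodule.torsionBy O M π).FG) :
    Module.Free O (tcCondTate π h c U) := by
  haveI := tcCondTate_finite (h := h) (c := c) (U := U) hπ hπ0 hfg
  haveI := tcCondTate_isTorsionFree (h := h) (c := c) (U := U) hπ
  exact Module.free_of_finite_type_torsion_free'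

end CondTateDVR

/-! ### the action of a group on the conditional eigen-lattice -/

section CondAction

variable {O : Type*} [CommRing O] {π : O} {M : Type*} [AddCommGroup M] [Module O M]
  {N : Type*} [AddCommGroup N] [Module O N]
  {ι : Type*} {h : ι → Module.End O M} {c : ι → O} {U : M →ₗ[O] N}

/-- An endomorphism of `M` commuting with all `h i` and preserving `ker U` acts on the
conditional eigen-lattice. -/
def tcCondTateMap (φ : Module.End O M) (hφ : ∀ i m, h i (φ m) = φ (h i m))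
    (hφU : ∀ m, U m = 0 → U (φ m) = 0) :
    Module.End O (tcCondTate π h c U) :=
  (φ.compLeft ℕ).restrict (p := tcCondTate π h c U) (q := tcCondTate π h c U) (by
    rintro x ⟨⟨hx, hx'⟩, hx''⟩
    refine ⟨⟨comp_mem_tate φ hx, fun i n => ?_⟩, fun n => ?_⟩
    · show h i (φ (x n)) = c i • φ (x n)
      rw [hφ, hx' i n, map_smul]
    · show U (φ (x n)) = 0
      exact hφU _ (hx'' n))

@[simp] theorem tcCondTateMap_apply (φ : Module.End O M) (hφ : ∀ i m, h i (φ m) = φ (h i m))
    (hφU : ∀ m, U m = 0 → U (φ m) = 0) (x : tcCondTate π h c U) (n : ℕ) :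
    (tcCondTateMap φ hφ hφU x).1 n = φ (x.1 n) := rfl

variable {G : Type*} [Group G] (g : G →* Module.End O M)
  (hcomm : ∀ σ i m, h i (g σ m) = g σ (h i m))
  (hstab : ∀ σ m, U m = 0 → U (g σ m) = 0)

/-- The action of `G` on the conditional eigen-lattice. -/
def tcCondTateRep : G →* Module.End O (tcCondTate π h c U) where
  toFun σ := tcCondTateMap (g σ) (hcomm σ) (hstab σ)
  map_one' := by
    apply LinearMap.ext
    intro x
    apply Subtype.ext
    funext n
    simp
  map_mul' σ τ := by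
    apply LinearMap.ext
    intro x
    apply Subtype.ext
    funext n
    simp

@[simp] theorem tcCondTateRep_apply (σ : G) (x : tcCondTate π h c U) (n : ℕ) :
    (tcCondTateRep (π := π) (c := c) g hcomm hstab σ x).1 n = g σ (x.1 n) := rfl

/-- If `g σ` fixes the `π ^ n`-torsion of `M` for all `n`, then `σ` acts trivially. -/
theorem tcCondTateRep_eq_one {σ : G} (hσ : ∀ n (m : M), π ^ n • m = 0 → g σ m = m) :
    tcCondTateRep (π := π) (c := c) g hcomm hstab σ = 1 := by
  apply LinearMap.ext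
  intro x
  apply Subtype.ext
  funext n
  rw [tcCondTateRep_apply, Module.End.one_apply]
  exact hσ n _ (tcCondTate_pow_smul_self x n)

/-- The quadratic relation on the conditional eigen-lattice. -/
theorem tcCondTateRep_quadratic {σ : G} (i : ι) (b : O)
    (hσ : ∀ n (m : M), π ^ n • m = 0 → g σ (g σ m) - h i (g σ m) + b • m = 0) :
    tcCondTateRep (π := π) (c := c) g hcomm hstab σ
        * tcCondTateRep (π := π) (c := c) g hcomm hstab σ
      - c i • tcCondTateRep (π := π) (c := c) g hcomm hstab σ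
      + b • (1 : Module.End O (tcCondTate π h c U)) = 0 := by
  apply LinearMap.ext
  intro x
  apply Subtype.ext
  funext n
  have h1 := hσ n _ (tcCondTate_pow_smul_self x n)
  have h2 : h i (g σ (x.1 n)) = c i • g σ (x.1 n) := by
    rw [hcomm, x.2.1.2 i n, map_smul]
  rw [h2] at h1
  simpa using h1

theorem tc_list_sum_condTateRep_apply (l : List (ℤ × G)) (x : tcCondTate π h c U) (n : ℕ) :
    ((l.map fun ag => ag.1 • tcCondTateRep (π := π) (c := c) g hcomm hstab ag.2).sum x).1 n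
      = (l.map fun ag => ag.1 • g ag.2 (x.1 n)).sum := by
  induction l with
  | nil => simp
  | cons ag l ih =>
    rw [List.map_cons, List.sum_cons, LinearMap.add_apply, List.map_cons, List.sum_cons, ← ih]
    rfl

/-- **Conditional transfer principle**, abstract form. -/
theorem tcCondTateRep_list_eq_zero (l : List (ℤ × G))
    (hl : ∀ (n : ℕ) (m : M), π ^ n • m = 0 → U m = 0 →
      (l.map fun ag => ag.1 • g ag.2 m).sum = 0) :
    (l.map fun ag => ag.1 • tcCondTateRep (π := π) (c := c) g hcomm hstab ag.2).sum = 0 := by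
  apply LinearMap.ext
  intro x
  apply Subtype.ext
  funext n
  rw [tc_list_sum_condTateRep_apply]
  exact hl n _ (tcCondTate_pow_smul_self x n) (x.2.2 n)

end CondAction

section CondActionDVR

variable {O : Type*} [CommRing O] [IsDomain O] [IsDiscreteValuationRing O]
  {π : O} {M : Type*} [AddCommGroup M] [Module O M]
  {N : Type*} [AddCommGroup N] [Module O N]
  {ι : Type*} {h : ι → Module.End O M} {c : ι → O} {U : M →ₗ[O] N}
  {G : Type*} [Group G] (g : G →* Module.End O M)
  (hcomm : ∀ σ i m, h i (g σ m) = g σ (h i m))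
  (hstab : ∀ σ m, U m = 0 → U (g σ m) = 0)

/-- If `g σ` fixes the `π ^ n`-torsion of `M`, then `σ - 1` maps the conditional eigen-lattice
into `𝔪 ^ n` times itself. -/
theorem tcCondTateRep_sub_mem (hπ : π ∈ maximalIdeal O) (hπ0 : π ≠ 0) {σ : G} {n : ℕ}
    (hσ : ∀ m : M, π ^ n • m = 0 → g σ m = m) (x : tcCondTate π h c U) :
    tcCondTateRep (π := π) (c := c) g hcomm hstab σ x - x ∈
      (maximalIdeal O ^ n) • (⊤ : Submodule O (tcCondTate π h c U)) := by
  set w := tcCondTateRep (π := π) (c := c) g hcomm hstab σ x - x with hw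
  have hwn : w.1 n = 0 := by
    show g σ (x.1 n) - x.1 n = 0
    rw [hσ _ (tcCondTate_pow_smul_self x n), sub_self]
  obtain ⟨y, hy, hy'⟩ := exists_eq_pow_smul w.2.1.1 hwn
  have hy2 : y ∈ tcCondTate π h c U :=
    tcCondTate_saturated hπ (pow_ne_zero n hπ0) hy (hy' ▸ w.2)
  have h3 : w = π ^ n • (⟨y, hy2⟩ : tcCondTate π h c U) := Subtype.ext hy'
  rw [h3]
  exact Submodule.smul_mem_smul (Ideal.pow_mem_pow hπ n) Submodule.mem_top

end CondActionDVR

/-! ### the bridge -/

section CondBridge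

variable {O : Type*} [CommRing O] [Module.Flat ℤ O] {J : Type*} [AddCommGroup J]
  {ι : Type*} (T : ι → Module.End ℤ J) (c : ι → O) {p : ℕ}

/-- The bridge: a compatible sequence of eigen-classes in `O ⊗ J[p ^ n]` killed by `u` gives a
nonzero element of the conditional eigen-lattice. -/
theorem tc_exists_mem_condTate_ne_zero
    (μ : ∀ n, Submodule.torsionBy ℤ J ((p ^ (n + 1) : ℕ) : ℤ) →ₗ[ℤ]
      Submodule.torsionBy ℤ J ((p ^ n : ℕ) : ℤ))
    (hμ : ∀ n (y : Submodule.torsionBy ℤ J ((p ^ (n + 1) : ℕ) : ℤ)),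
      ((μ n y : Submodule.torsionBy ℤ J ((p ^ n : ℕ) : ℤ)) : J) = (p : ℤ) • (y : J))
    (Tt : ∀ (_ : ι) (n : ℕ), Submodule.torsionBy ℤ J ((p ^ n : ℕ) : ℤ) →ₗ[ℤ]
      Submodule.torsionBy ℤ J ((p ^ n : ℕ) : ℤ))
    (hTt : ∀ i n (y : Submodule.torsionBy ℤ J ((p ^ n : ℕ) : ℤ)),
      ((Tt i n y : Submodule.torsionBy ℤ J ((p ^ n : ℕ) : ℤ)) : J) = T i (y : J))
    (x : (n : ℕ) → O ⊗[ℤ] Submodule.torsionBy ℤ J ((p ^ n : ℕ) : ℤ))
    (hx0 : ∃ n, x n ≠ 0)
    (hcompat : ∀ n, (μ n).baseChange O (x (n + 1)) = x n)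
    (heig : ∀ i n, (Tt i n).baseChange O (x n) = c i • x n)
    {J' : Type*} [AddCommGroup J'] (u : J →ₗ[ℤ] J')
    (hux : ∀ n,
      (u ∘ₗ (Submodule.torsionBy ℤ J ((p ^ n : ℕ) : ℤ)).subtype).baseChange O (x n) = 0) :
    ∃ X : ℕ → O ⊗[ℤ] J,
      X ∈ tcCondTate (p : O) (fun i => (T i).baseChange O) c (u.baseChange O) ∧ X ≠ 0 := by
  refine ⟨fun n => (Submodule.torsionBy ℤ J ((p ^ n : ℕ) : ℤ)).subtype.baseChange O (x n),
    ⟨⟨⟨?_, ?_⟩, ?_⟩, ?_⟩, ?_⟩
  · -- X 0 = 0
    have h0 : (Submodule.torsionBy ℤ J ((p ^ 0 : ℕ) : ℤ)).subtype = 0 := by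
      apply LinearMap.ext
      rintro ⟨y, hy⟩
      rw [Submodule.mem_torsionBy_iff, pow_zero, Nat.cast_one, one_smul] at hy
      rw [Submodule.subtype_apply, LinearMap.zero_apply]
      exact hy
    show (Submodule.torsionBy ℤ J ((p ^ 0 : ℕ) : ℤ)).subtype.baseChange O (x 0) = 0
    rw [h0, LinearMap.baseChange_zero, LinearMap.zero_apply]
  · -- p • X (n+1) = X n
    intro n
    show (p : O) • (Submodule.torsionBy ℤ J ((p ^ (n + 1) : ℕ) : ℤ)).subtype.baseChange O
        (x (n + 1))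
      = (Submodule.torsionBy ℤ J ((p ^ n : ℕ) : ℤ)).subtype.baseChange O (x n)
    have h1 : (Submodule.torsionBy ℤ J ((p ^ n : ℕ) : ℤ)).subtype ∘ₗ μ n =
        (p : ℤ) • (Submodule.torsionBy ℤ J ((p ^ (n + 1) : ℕ) : ℤ)).subtype := by
      apply LinearMap.ext
      intro y
      simp only [LinearMap.comp_apply, Submodule.subtype_apply, LinearMap.smul_apply]
      exact hμ n y
    rw [← hcompat n, ← LinearMap.comp_apply, ← LinearMap.baseChange_comp, h1,
      LinearMap.baseChange_smul, LinearMap.smul_apply, natCast_smul_tensor]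
  · -- eigen
    intro i n
    show (T i).baseChange O
        ((Submodule.torsionBy ℤ J ((p ^ n : ℕ) : ℤ)).subtype.baseChange O (x n))
      = c i • (Submodule.torsionBy ℤ J ((p ^ n : ℕ) : ℤ)).subtype.baseChange O (x n)
    have h1 : T i ∘ₗ (Submodule.torsionBy ℤ J ((p ^ n : ℕ) : ℤ)).subtype =
        (Submodule.torsionBy ℤ J ((p ^ n : ℕ) : ℤ)).subtype ∘ₗ Tt i n := by
      apply LinearMap.ext
      intro y
      simp only [LinearMap.comp_apply, Submodule.subtype_apply]
      exact (hTt i n y).symm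
    rw [← LinearMap.comp_apply, ← LinearMap.baseChange_comp, h1, LinearMap.baseChange_comp,
      LinearMap.comp_apply, heig i n, map_smul]
  · -- the kernel condition
    intro n
    show u.baseChange O
        ((Submodule.torsionBy ℤ J ((p ^ n : ℕ) : ℤ)).subtype.baseChange O (x n)) = 0
    rw [← LinearMap.comp_apply, ← LinearMap.baseChange_comp]
    exact hux n
  · -- nonzero
    obtain ⟨n, hn⟩ := hx0
    intro hX
    apply hn
    apply torsion_baseChange_injective O (J := J) (p ^ n)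
    rw [map_zero]
    exact congrFun hX n

end CondBridge

/-- **Conditional transfer.** -/
theorem exists_eigenLattice_transfer_cond
    {O : Type} [CommRing O] [IsDomain O] [IsDiscreteValuationRing O]
    [IsAdicComplete (maximalIdeal O) O] [CharZero O]
    {p : ℕ} (hp : p.Prime) (hpO : (p : O) ∈ maximalIdeal O)
    {J : Type} [AddCommGroup J] {G : Type} [Group G] [DistribMulAction G J]
    {ι : Type} (T : ι → Module.End ℤ J) (c : ι → O)
    (hT : ∀ i (σ : G) (x : J), T i (σ • x) = σ • T i x)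
    (hfin : {x : J | p • x = 0}.Finite)
    (μ : ∀ n, Submodule.torsionBy ℤ J ((p ^ (n + 1) : ℕ) : ℤ) →ₗ[ℤ]
      Submodule.torsionBy ℤ J ((p ^ n : ℕ) : ℤ))
    (hμ : ∀ n (y : Submodule.torsionBy ℤ J ((p ^ (n + 1) : ℕ) : ℤ)),
      ((μ n y : Submodule.torsionBy ℤ J ((p ^ n : ℕ) : ℤ)) : J) = (p : ℤ) • (y : J))
    (Tt : ∀ (_ : ι) (n : ℕ), Submodule.torsionBy ℤ J ((p ^ n : ℕ) : ℤ) →ₗ[ℤ]
      Submodule.torsionBy ℤ J ((p ^ n : ℕ) : ℤ))
    (hTt : ∀ i n (y : Submodule.torsionBy ℤ J ((p ^ n : ℕ) : ℤ)),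
      ((Tt i n y : Submodule.torsionBy ℤ J ((p ^ n : ℕ) : ℤ)) : J) = T i (y : J))
    (x : (n : ℕ) → O ⊗[ℤ] Submodule.torsionBy ℤ J ((p ^ n : ℕ) : ℤ))
    (hx0 : ∃ n, x n ≠ 0)
    (hcompat : ∀ n, (μ n).baseChange O (x (n + 1)) = x n)
    (heig : ∀ i n, (Tt i n).baseChange O (x n) = c i • x n)
    -- the kernel condition
    {J' : Type} [AddCommGroup J'] (u : J →ₗ[ℤ] J')
    (hu : ∀ (σ : G) (y : J), u y = 0 → u (σ • y) = 0)
    (hux : ∀ n, (u ∘ₗ (Submodule.torsionBy ℤ J ((p ^ n : ℕ) : ℤ)).subtype).baseChange O (x n) = 0) :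
    ∃ (Λ : Type) (_ : AddCommGroup Λ) (_ : Module O Λ) (_ : Module.Free O Λ)
      (_ : Module.Finite O Λ) (_ : Nontrivial Λ) (ρ : G →* Module.End O Λ),
      (∀ (n : ℕ) (σ : G), (∀ y : J, p ^ n • y = 0 → σ • y = y) →
          ∀ v : Λ, ρ σ v - v ∈ (maximalIdeal O ^ n) • (⊤ : Submodule O Λ)) ∧
      (∀ σ : G, (∀ (n : ℕ) (y : J), p ^ n • y = 0 → σ • y = y) → ρ σ = 1) ∧
      (∀ (σ : G) (i : ι) (ℓ : ℕ),
          (∀ (n : ℕ) (y : J), p ^ n • y = 0 → σ • σ • y - T i (σ • y) + ℓ • y = 0) →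
          ρ σ * ρ σ - c i • ρ σ + (ℓ : O) • (1 : Module.End O Λ) = 0) ∧
      (∀ l : List (ℤ × G),
          (∀ (n : ℕ) (y : J), p ^ n • y = 0 → u y = 0 →
            (l.map fun ag => ag.1 • (ag.2 • y)).sum = 0) →
          (l.map fun ag => ag.1 • ρ ag.2).sum = 0) := by
  have hπ0 : (p : O) ≠ 0 := Nat.cast_ne_zero.mpr hp.ne_zero
  have hfg : (Submodule.torsionBy O (O ⊗[ℤ] J) (p : O)).FG := torsionBy_tensor_fg O p hfin
  have hcomm : ∀ (σ : G) (i : ι) (m : O ⊗[ℤ] J),
      (T i).baseChange O (galBC O J σ m) = galBC O J σ ((T i).baseChange O m) :=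
    fun σ i m => galBC_comm O (T i) (hT i) σ m
  have hstab : ∀ (σ : G) (m : O ⊗[ℤ] J), u.baseChange O m = 0 →
      u.baseChange O (galBC O J σ m) = 0 := by
    intro σ m hm
    rw [galBC_apply, ← LinearMap.comp_apply, ← LinearMap.baseChange_comp]
    exact tc_baseChange_eq_zero_of_ker O u (u ∘ₗ galLinZ J σ) (fun y hy => hu σ y hy) m hm
  have hcast : ∀ (n : ℕ) (m : O ⊗[ℤ] J), (p : O) ^ n • m = 0 →
      ((p ^ n : ℕ) : O) • m = 0 := fun n m hm => by
    rw [Nat.cast_pow]; exact hm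
  obtain ⟨X, hX, hXne⟩ :=
    tc_exists_mem_condTate_ne_zero T c μ hμ Tt hTt x hx0 hcompat heig u hux
  refine ⟨tcCondTate (p : O) (fun i => (T i).baseChange O) c (u.baseChange O),
    inferInstance, inferInstance,
    tcCondTate_free hpO hπ0 hfg, tcCondTate_finite hpO hπ0 hfg,
    ⟨⟨⟨X, hX⟩, 0, fun h => hXne (congrArg Subtype.val h)⟩⟩,
    tcCondTateRep (galBC O J) hcomm hstab, ?_, ?_, ?_, ?_⟩
  · intro n σ hfix v
    exact tcCondTateRep_sub_mem (galBC O J) hcomm hstab hpO hπ0
      (fun m hm => galBC_fix O (p ^ n) σ hfix m (hcast n m hm)) v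
  · intro σ hfix
    apply tcCondTateRep_eq_one
    intro n m hm
    exact galBC_fix O (p ^ n) σ (hfix n) m (hcast n m hm)
  · intro σ i ℓ hq
    exact tcCondTateRep_quadratic (h := fun i => (T i).baseChange O) (galBC O J) hcomm hstab i
      (ℓ : O) (fun n m hm => galBC_quadratic O (p ^ n) σ (T i) ℓ (hq n) m (hcast n m hm))
  · intro l hl
    apply tcCondTateRep_list_eq_zero
    intro n m hm hum
    rw [← listLinZ_baseChange]
    exact tc_baseChange_eq_zero_of_torsion_of_ker O (p ^ n) u (listLinZ l)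
      (fun y hy huy => by rw [listLinZ_apply]; exact hl n y hy huy) m (hcast n m hm) hum

end Fermat.Agent.S35
end
end MergeWrap_S35_TransferCond
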