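import Mathlib
import Fermat.Agent.MUL.S35.KernelAt
import Fermat.Agent.MUL.S35.LatticeCond
import Fermat.Agent.MUL.S33.PNew
import Fermat.Agent.MUL.S35.SMO
import Fermat.Agent.MUL.Lib.BadRed.Final.Main
import Fermat.Agent.MUL.Lib.FFL.Defs

section MergeWrap_S35_AssemblyNew -- from S35/AssemblyNew.lean

set_option autoImplicit false
set_option linter.unusedSectionVars false
set_option linter.style.haveILetI false

noncomputable section

namespace Fermat.Agent.S35

open ModularCurve AlgebraicCurve CongruenceSubgroup IsLocalRing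
open Fermat.Agent.F3EC Fermat.Agent.BadRed
open Fermat.Agent.AtkinLehner (ALData)
open scoped TensorProduct

/-- weak strong multiplicity one in the shape of WP C. -/
theorem weakSMOAt (N q : ℕ) [NeZero N] [NeZero q] : WeakSMOAt N q := by
  intro g g₀ S hg hg₀ h ℓ hℓ hℓN
  exact (Fermat.Agent.S35SMO.smo_weak (M := N * q) (M₀ := N) (Dvd.intro _ rfl) hg hg₀ S
    (fun ℓ hℓ hℓS => (h ℓ hℓ hℓS).symm) ℓ hℓ hℓN).symm

/-- WP C, unconditional. -/
theorem newVectorAt_all (N q : ℕ) [NeZero N] [NeZero q] (hq : q.Prime) (hqN : ¬ q ∣ N) :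
    NewVectorAt N q :=
  newVectorAt N q hq hqN (weakSMOAt N q)

/-- **the lattice input of S35 from the toric key.** -/
theorem s35LatticeInput_of_key
    (hkey : ∀ D' : ALData, AuxLevel.AuxOK D' → FrobToricKeyAt D') : S35LatticeInput := by
  intro M _ g hg lam _ S O' _ _ _ _ _ _ hlamO' chig hchig iota hlamS hMS
  have hp : lam.Prime := Fact.out
  have hMS' : ∀ q : ℕ, q.Prime → q ∣ M → q ∈ (↑S : Set ℕ) := fun q hq hqM =>
    Finset.mem_coe.mpr (hMS q hq hqM)
  obtain ⟨x₀, hx₀, hx⟩ :=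
    Fermat.Agent.F3EP.exists_eigenvector_homPar' hMS' (iota.comp chig.rangeRestrict)
  have hpu : ¬ IsUnit (lam : O') := fun hu => (IsLocalRing.mem_maximalIdeal _).mp hlamO' hu
  exact exists_frobLattice_quartic M
    (Fermat.Agent.F3TF.torsionFinite M)
    (Fermat.Agent.GaussInt.torsionUnramified_of_keyLemmaAt
      (Fermat.Agent.GaussInt.keyLemmaAt_all M))
    (Fermat.Agent.GaussIntFP.torsionFrobQuadratic_of_keyLemmaAt
      (Fermat.Agent.GaussInt.keyLemmaAt_all M) (Fermat.Agent.F3W.heckeInputs_all M))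
    (Fermat.Agent.F3.torsionOpenStab M) (Fermat.Agent.F3G.heckeGaloisComm M)
    lam S hlamS hMS O' hlamO' (iota.comp chig.rangeRestrict)
    (newClass M lam O' x₀)
    (newClass_ne_zero hp hpu hx₀)
    (fun n => newClass_compat hp x₀ n)
    (fun n ℓ hℓ hℓN hℓS => newClass_eig ⟨ℓ, hℓ⟩ hℓN (hx ℓ hℓ hℓN hℓS) n)
    (newU M lam)
    (fun σ y h => newU_smul σ y h)
    (fun n => newU_newClass (fun N q _ _ hq hqN => newVectorAt_all N q hq hqN) g hg S hMS O'
      chig hchig iota x₀ hx n)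
    (fun n q hq hqp hqM hq2 A hA φ hφ y hy huy =>
      newU_quartic hp hkey n q hq hqp hqM hq2 A hA φ hφ y hy huy)

/-- **S35 from the toric key.** -/
theorem s35Statement_of_key
    (hkey : ∀ D' : ALData, AuxLevel.AuxOK D' → FrobToricKeyAt D') : S35Statement :=
  s35Statement_of_lattice Fermat.Agent.F3.frobDensityLite
    (fun p _ 𝒪 _ _ _ _ _ _ hp => ⟨Fermat.Agent.Cyclo.cycloCharData (p := p) (𝒪 := 𝒪) hp⟩)
    (s35LatticeInput_of_key hkey)

end Fermat.Agent.S35
end
end MergeWrap_S35_AssemblyNew
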